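import Fermat.Prelude.Def_GaloisRep_StrictOrdinary
import Mathlib.RingTheory.TensorProduct.Free
import Mathlib.LinearAlgebra.Determinant
import Mathlib.LinearAlgebra.Matrix.Basis

/-!
Ordinary and strictly ordinary representations: a criterion and behaviour under equivalence and
base change.
-/

set_option autoImplicit false

open scoped TensorProduct

namespace FermatLib.MLT

local notation "Γℚ" => (AlgebraicClosure ℚ ≃ₐ[ℚ] AlgebraicClosure ℚ)

variable {A : Type} [CommRing A] [IsLocalRing A]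

/-- A vector outside `𝔪 V` starts a basis of a free module of rank two over a local ring. -/
lemma exists_basis_fin_two_apply_zero {V : Type*} [AddCommGroup V] [Module A V] [Module.Free A V]
    [Module.Finite A V] (h2 : Module.finrank A V = 2) {v : V}
    (hv : v ∉ IsLocalRing.maximalIdeal A • (⊤ : Submodule A V)) :
    ∃ b : Module.Basis (Fin 2) A V, b 0 = v := by
  obtain ⟨b₀, -⟩ : ∃ b₀ : Module.Basis (Fin 2) A V, True :=
    ⟨Module.finBasisOfFinrankEq A V h2, trivial⟩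
  have hu : IsUnit (b₀.repr v 0) ∨ IsUnit (b₀.repr v 1) := by
    by_contra hc
    push Not at hc
    refine hv ?_
    rw [← b₀.sum_repr v, Fin.sum_univ_two]
    exact Submodule.add_mem _
      (Submodule.smul_mem_smul ((IsLocalRing.mem_maximalIdeal _).2 hc.1) trivial)
      (Submodule.smul_mem_smul ((IsLocalRing.mem_maximalIdeal _).2 hc.2) trivial)
  have key : ∀ w : V, IsUnit (b₀.det ![v, w]) → ∃ b : Module.Basis (Fin 2) A V, b 0 = v := by
    intro w hw
    obtain ⟨hli, hspan⟩ := (Module.Basis.is_basis_iff_det b₀).2 hw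
    exact ⟨Module.Basis.mk hli hspan.ge, by simp⟩
  rcases hu with h | h
  · refine key (b₀ 1) ?_
    rw [Module.Basis.det_apply, Matrix.det_fin_two]
    simpa [Module.Basis.toMatrix_apply] using h
  · refine key (b₀ 0) ?_
    rw [Module.Basis.det_apply, Matrix.det_fin_two]
    simpa [Module.Basis.toMatrix_apply] using h

omit [IsLocalRing A] in
lemma det_eq_mul_of_triangular {V : Type*} [AddCommGroup V] [Module A V]
    (b : Module.Basis (Fin 2) A V) (f : Module.End A V) {x z : A} (hx : f (b 0) = x • b 0)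
    (hz : f (b 1) - z • b 1 ∈ A ∙ b 0) : LinearMap.det f = x * z := by
  obtain ⟨c, hc⟩ := Submodule.mem_span_singleton.1 hz
  have hb : f (b 1) = c • b 0 + z • b 1 := by rw [hc]; abel
  rw [← LinearMap.det_toMatrix b, Matrix.det_fin_two]
  simp [LinearMap.toMatrix_apply, hx, hb]

lemma isOrdinaryAt_of_equiv {ρ₁ ρ₂ : GaloisRepAdic A} {p : ℕ} (e : GaloisRepAdic.Equiv ρ₁ ρ₂)
    (h : ρ₁.IsOrdinaryAt p) : ρ₂.IsOrdinaryAt p := by
  intro P hP
  obtain ⟨L, ⟨b, hb⟩, hD, hI⟩ := h P hP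
  have back : ∀ σ w, e.toLinearEquiv.symm (ρ₂.ρ σ w) = ρ₁.ρ σ (e.toLinearEquiv.symm w) :=
    fun σ w => e.symm.map_apply σ w
  have memL : ∀ w, w ∈ L.map e.toLinearEquiv.toLinearMap ↔ e.toLinearEquiv.symm w ∈ L :=
    fun w => Submodule.mem_map_equiv L
  refine ⟨L.map e.toLinearEquiv.toLinearMap, ⟨b.map e.toLinearEquiv, ?_⟩, ?_, ?_⟩
  · rw [hb, Submodule.map_span, Set.image_singleton]; rfl
  · intro σ hσ w hw
    rw [memL, back]
    exact hD σ hσ _ ((memL w).1 hw)
  · intro σ hσ w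
    rw [memL, map_sub, back]
    exact hI σ hσ _

lemma isStrictOrdinaryAt_of_equiv {ρ₁ ρ₂ : GaloisRepAdic A} {p : ℕ}
    (e : GaloisRepAdic.Equiv ρ₁ ρ₂) (h : ρ₁.IsStrictOrdinaryAt p) : ρ₂.IsStrictOrdinaryAt p := by
  refine ⟨h.1, fun P hP => ?_⟩
  obtain ⟨L, ⟨b, hb⟩, hD, hI, hc⟩ := h.2 P hP
  have back : ∀ σ w, e.toLinearEquiv.symm (ρ₂.ρ σ w) = ρ₁.ρ σ (e.toLinearEquiv.symm w) :=
    fun σ w => e.symm.map_apply σ w
  have memL : ∀ w, w ∈ L.map e.toLinearEquiv.toLinearMap ↔ e.toLinearEquiv.symm w ∈ L :=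
    fun w => Submodule.mem_map_equiv L
  refine ⟨L.map e.toLinearEquiv.toLinearMap, ⟨b.map e.toLinearEquiv, ?_⟩, ?_, ?_, ?_⟩
  · rw [hb, Submodule.map_span, Set.image_singleton]; rfl
  · intro σ hσ w hw
    rw [memL, back]
    exact hD σ hσ _ ((memL w).1 hw)
  · intro σ hσ w
    rw [memL, map_sub, back]
    exact hI σ hσ _
  · intro σ hσ
    obtain ⟨x, z, hx, hz, hxz⟩ := hc σ hσ
    refine ⟨x, z, fun w hw => e.toLinearEquiv.symm.injective ?_, fun w => ?_, hxz⟩
    · rw [back, map_smul, hx _ ((memL w).1 hw)]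
    · rw [memL, map_sub, map_smul, back]
      exact hz _

section BaseChange

variable {B : Type} [CommRing B] [IsLocalRing B] (φ : A →+* B) (hφ : IsLocalHom φ)

theorem isStrictOrdinaryAt_baseChangeAlong {ρ : GaloisRepAdic A} {p : ℕ}
    (h : ρ.IsStrictOrdinaryAt p) : (ρ.baseChangeAlong φ hφ).IsStrictOrdinaryAt p := by
  refine ⟨by
    haveI := hφ
    simpa using map_nonunit φ _ h.1, fun P hP => ?_⟩
  letI : Algebra A B := φ.toAlgebra
  obtain ⟨L, ⟨b, hb⟩, hD, hI, hc⟩ := h.2 P hP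
  show ∃ L' : Submodule B (B ⊗[A] ρ.V), (∃ b' : Module.Basis (Fin 2) B (B ⊗[A] ρ.V),
      L' = B ∙ b' 0) ∧
    (∀ σ ∈ P.decompositionSubgroup ℚ, ∀ w ∈ L', (ρ.ρ σ).baseChange B w ∈ L') ∧
    (∀ σ ∈ P.inertiaSubgroupIn ℚ, ∀ w, (ρ.ρ σ).baseChange B w - w ∈ L') ∧
    (∀ σ ∈ P.decompositionSubgroup ℚ, ∃ x z : B,
      (∀ w ∈ L', (ρ.ρ σ).baseChange B w = x • w) ∧
      (∀ w, (ρ.ρ σ).baseChange B w - z • w ∈ L') ∧
      ∀ (n a : ℕ), (∀ μ : AlgebraicClosure ℚ, μ ^ p ^ n = 1 → σ μ = μ ^ a) →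
        x - (a : B) * z ∈ Ideal.span {((p ^ n : ℕ) : B)})
  have tm : ∀ (s : B) (v : ρ.V), v ∈ L → s ⊗ₜ[A] v ∈ B ∙ ((1 : B) ⊗ₜ[A] b 0) := by
    intro s v hv
    rw [hb, Submodule.mem_span_singleton] at hv
    obtain ⟨c, rfl⟩ := hv
    rw [TensorProduct.tmul_smul, ← algebraMap_smul B c,
      show s ⊗ₜ[A] b 0 = s • ((1 : B) ⊗ₜ[A] b 0) by rw [TensorProduct.smul_tmul', smul_eq_mul,
        mul_one]]
    exact Submodule.smul_mem _ _ (Submodule.smul_mem _ _ (Submodule.mem_span_singleton_self _))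
  have hb0 : b 0 ∈ L := hb ▸ Submodule.mem_span_singleton_self _
  refine ⟨B ∙ ((1 : B) ⊗ₜ[A] b 0), ⟨Algebra.TensorProduct.basis B b, by simp⟩, ?_, ?_, ?_⟩
  · intro σ hσ w hw
    obtain ⟨s, rfl⟩ := Submodule.mem_span_singleton.1 hw
    rw [map_smul, LinearMap.baseChange_tmul]
    exact Submodule.smul_mem _ _ (tm _ _ (hD σ hσ _ hb0))
  · intro σ hσ w
    induction w using TensorProduct.induction_on with
    | zero => simp
    | tmul s v => rw [LinearMap.baseChange_tmul, ← TensorProduct.tmul_sub]; exact tm _ _ (hI σ hσ v)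
    | add u w hu hw => rw [map_add, add_sub_add_comm]; exact add_mem hu hw
  · intro σ hσ
    obtain ⟨x, z, hx, hz, hxz⟩ := hc σ hσ
    refine ⟨φ x, φ z, fun w hw => ?_, fun w => ?_, fun n a ha => ?_⟩
    · obtain ⟨s, rfl⟩ := Submodule.mem_span_singleton.1 hw
      rw [map_smul, LinearMap.baseChange_tmul, hx _ hb0, TensorProduct.tmul_smul,
        ← algebraMap_smul B x, smul_comm]
      rfl
    · induction w using TensorProduct.induction_on with
      | zero => simp
      | tmul s v =>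
        rw [LinearMap.baseChange_tmul, show φ z = algebraMap A B z from rfl, algebraMap_smul,
          ← TensorProduct.tmul_smul, ← TensorProduct.tmul_sub]
        exact tm _ _ (hz v)
      | add u w hu hw => rw [map_add, smul_add, add_sub_add_comm]; exact add_mem hu hw
    · obtain ⟨c, hc'⟩ := Ideal.mem_span_singleton'.1 (hxz n a ha)
      refine Ideal.mem_span_singleton'.2 ⟨φ c, ?_⟩
      rw [← map_natCast φ a, ← map_mul, ← map_sub, ← hc', map_mul, map_natCast]

end BaseChange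

end FermatLib.MLT
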