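import Fermat.Agent.EC.AtPOrdinary
import Fermat.Agent.MLT.Ordinary.Basic
import Fermat.Agent.MLT.Tate.Det

/-!
The Tate module at a place over `p`: ordinary for good ordinary or multiplicative reduction,
strictly ordinary for multiplicative reduction.
-/

set_option autoImplicit false

noncomputable section

namespace FermatLib.MLT

open WeierstrassCurve
open scoped WeierstrassCurve.Affine

local notation "ℚbar" => AlgebraicClosure ℚ
local notation "Γℚ" => (AlgebraicClosure ℚ ≃ₐ[ℚ] AlgebraicClosure ℚ)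

variable (W : WeierstrassCurve ℤ) [(W.map (Int.castRingHom ℚ)).IsElliptic] (p : ℕ)
  [hpf : Fact p.Prime]

/-- The Tate module of an integral model. -/
local notation "Tp" => (Tate.curveTate (W.map (Int.castRingHom ℚ)) p)
local notation "π" => (Tate.curveTateProj (W.map (Int.castRingHom ℚ)) p)

/-- The kernel line of the Tate module at an ordinary or multiplicative place. -/
theorem exists_kernel_line {A : ValuationSubring ℚbar} (hA : A.LiesOverPrime p)
    (hgm : AtP.GoodOrOddMult W p) (hprop : AtP.KernelProper W A p) :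
    ∃ b : Module.Basis (Fin 2) ℤ_[p] (Tp).V, ∀ w : (Tp).V,
      w ∈ ℤ_[p] ∙ b 0 ↔ ∀ n, AtP.IsKerPt A.valuation (π n w) := by
  obtain ⟨z, hz0, hz1, hstep, hker, hgen⟩ := AtP.exists_kerPt_generators W hgm hA hprop
  have hpz : ∀ n, p ^ n • z n = 0 := fun n => by
    induction n with
    | zero => rw [pow_zero, one_smul, hz0]
    | succ n ih => rw [pow_succ, mul_smul, hstep, ih]
  obtain ⟨v₁, hv₁⟩ :=
    Tate.exists_curveTateProj_forall_eq (W.map (Int.castRingHom ℚ)) p hpz hstep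
  have hv₁m : v₁ ∉ IsLocalRing.maximalIdeal ℤ_[p] • (⊤ : Submodule ℤ_[p] (Tp).V) := fun h => by
    refine hz1 ?_
    rw [← hv₁ 1]
    exact (Tate.curveTateProj_eq_zero_iff _ p).2 (by rwa [pow_one])
  obtain ⟨b, hb⟩ := exists_basis_fin_two_apply_zero (Tp).finrank_eq hv₁m
  refine ⟨b, fun w => ⟨fun hw n => ?_, fun hw => ?_⟩⟩
  · obtain ⟨c, rfl⟩ := Submodule.mem_span_singleton.1 hw
    obtain ⟨a, ha⟩ := ZMod.intCast_surjective (PadicInt.toZModPow n c)
    rw [hb, Tate.curveTateProj_smul_of_toZModPow_eq _ p ha, hv₁ n]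
    exact (AtP.kerSubgroup (AtP.integralCoeffs_bar W)).zsmul_mem (hker n) a
  · obtain ⟨x, hx⟩ : ∃ x, x = b.repr w 0 := ⟨_, rfl⟩
    obtain ⟨y, hy⟩ : ∃ y, y = b.repr w 1 := ⟨_, rfl⟩
    have hwxy : w = x • b 0 + y • b 1 := by
      rw [hx, hy]
      conv_lhs => rw [← b.sum_repr w, Fin.sum_univ_two]
    have hyn : ∀ n, y ∈ IsLocalRing.maximalIdeal ℤ_[p] ^ n := fun n => by
      obtain ⟨k, hk⟩ := hgen n _ (Tate.pow_smul_curveTateProj _ p n w) (hw n)
      have hd : w - (k : ℤ_[p]) • b 0 ∈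
          IsLocalRing.maximalIdeal ℤ_[p] ^ n • (⊤ : Submodule ℤ_[p] (Tp).V) := by
        refine (Tate.curveTateProj_eq_zero_iff _ p).1 ?_
        rw [map_sub, Nat.cast_smul_eq_nsmul, map_nsmul, hb, hv₁ n, hk, sub_self]
      have hrep : b.repr (w - (k : ℤ_[p]) • b 0) 1 = y := by simp [hy]
      rw [← hrep]
      refine Submodule.smul_induction_on (p := fun u => b.repr u 1 ∈ _) hd ?_ ?_
      · intro r hr u _
        rw [map_smul, Finsupp.smul_apply, smul_eq_mul]
        exact Ideal.mul_mem_right _ _ hr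
      · intro u u' hu hu'
        rw [map_add, Finsupp.add_apply]
        exact Ideal.add_mem _ hu hu'
    have hy0 : y = 0 := by
      have := Ideal.iInf_pow_eq_bot_of_isLocalRing (IsLocalRing.maximalIdeal ℤ_[p])
        (IsLocalRing.maximalIdeal.isMaximal _).ne_top
      have hm : y ∈ ⨅ n, IsLocalRing.maximalIdeal ℤ_[p] ^ n := Ideal.mem_iInf.2 hyn
      rwa [this, Ideal.mem_bot] at hm
    rw [hwxy, hy0, zero_smul, add_zero]
    exact Submodule.smul_mem _ _ (Submodule.mem_span_singleton_self _)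

omit [(W.map (Int.castRingHom ℚ)).IsElliptic] hpf in
lemma kerPt_smul {A : ValuationSubring ℚbar} {σ : Γℚ} (hσ : σ ∈ A.decompositionSubgroup ℚ)
    {P : AtP.Pts W} (h : AtP.IsKerPt A.valuation P) : AtP.IsKerPt A.valuation (σ • P) :=
  (AtP.isKerPt_smul_iff W hσ).2 h

/-- Multiplicative reduction at `p` makes `T_p E` strictly ordinary at `p`. -/
theorem isStrictOrdinaryAt_curveTate (hp2 : p ≠ 2) (hΔ : (p : ℤ) ∣ W.Δ)
    (hc₄ : ¬ (p : ℤ) ∣ W.c₄) : (Tp).IsStrictOrdinaryAt p := by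
  have hcyc := Tate.detIsCyclotomic_curveTate (W.map (Int.castRingHom ℚ)) p
  refine ⟨hcyc.1, fun A hA => ?_⟩
  have hgm : AtP.GoodOrOddMult W p := Or.inr ⟨hp2, hc₄⟩
  obtain ⟨b, hb⟩ := exists_kernel_line W p hA hgm (AtP.kernelProper_of_mult W hA hp2 hΔ hc₄)
  refine ⟨ℤ_[p] ∙ b 0, ⟨b, rfl⟩, fun σ hσ w hw => (hb _).2 fun n => ?_,
    fun σ hσ w => (hb _).2 fun n => ?_, fun σ hσ => ?_⟩
  · rw [Tate.curveTateProj_rho]
    exact kerPt_smul W hσ ((hb w).1 hw n)
  · rw [map_sub, Tate.curveTateProj_rho]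
    exact AtP.isKerPt_inertia_sub W hgm hA hσ (Tate.pow_smul_curveTateProj _ p n w)
  have hstab : (Tp).ρ σ (b 0) ∈ ℤ_[p] ∙ b 0 := (hb _).2 fun n => by
    rw [Tate.curveTateProj_rho]
    exact kerPt_smul W hσ ((hb _).1 (Submodule.mem_span_singleton_self _) n)
  obtain ⟨x, hx⟩ := Submodule.mem_span_singleton.1 hstab
  obtain ⟨z, hz2, hz⟩ : ∃ z : ℤ_[p], z * z = 1 ∧ ∀ w, (Tp).ρ σ w - z • w ∈ ℤ_[p] ∙ b 0 := by
    rcases AtP.decomposition_sign W hA hp2 hΔ hc₄ hσ with h | h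
    · refine ⟨1, one_mul 1, fun w => (hb _).2 fun n => ?_⟩
      rw [one_smul, map_sub, Tate.curveTateProj_rho]
      exact h n _ (Tate.pow_smul_curveTateProj _ p n w)
    · refine ⟨-1, by ring, fun w => (hb _).2 fun n => ?_⟩
      rw [neg_smul, one_smul, sub_neg_eq_add, map_add, Tate.curveTateProj_rho]
      exact h n _ (Tate.pow_smul_curveTateProj _ p n w)
  have hdet : LinearMap.det ((Tp).ρ σ) = x * z := det_eq_mul_of_triangular b _ hx.symm (hz _)
  refine ⟨x, z, fun w hw => ?_, hz, fun n a ha => ?_⟩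
  · obtain ⟨c, rfl⟩ := Submodule.mem_span_singleton.1 hw
    rw [map_smul, ← hx, smul_comm]
  · have := hcyc.2 n σ a ha
    rw [hdet] at this
    rw [show x - (a : ℤ_[p]) * z = z * (x * z - (a : ℤ_[p])) by linear_combination -x * hz2]
    exact Ideal.mul_mem_left _ _ this

end FermatLib.MLT

end
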